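import Fermat.Agent.Corollaries.Art.Joint

/-!
# Frobenius elements and power residues

For `p ∤ a q` a Frobenius element at `p` acts trivially on the roots of `X ^ q - a` if and only if
`q ∣ p - 1` and `a ^ ((p - 1) / q) ≡ 1 mod p`.
-/

set_option autoImplicit false

open Fermat.Agent.Frob Fermat.Agent.FrobDensity

namespace Fermat.Agent.Cor.Art

local notation "Qbar" => AlgebraicClosure ℚ

/-- `p ≡ 1 mod q` and `a` is a `q`-th power residue modulo `p` -/
def Res (a : ℤ) (q p : ℕ) : Prop := q ∣ p - 1 ∧ ((a : ℤ) : ZMod p) ^ ((p - 1) / q) = 1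

variable {a : ℤ} (R : Roots a) {A : ValuationSubring Qbar} {p : ℕ}

lemma intCast_pow_eq_one_iff (hp : p.Prime) (hA : A.LiesOverPrime p) (n : ℕ) :
    ((a : ℤ) : IsLocalRing.ResidueField A) ^ n = 1 ↔ ((a : ℤ) : ZMod p) ^ n = 1 := by
  have : Fact p.Prime := ⟨hp⟩
  have : CharP (IsLocalRing.ResidueField A) p := charP_residue hp hA
  have h1 : ((a : ℤ) : IsLocalRing.ResidueField A) ^ n =
      ZMod.castHom (dvd_refl p) (IsLocalRing.ResidueField A) (((a : ℤ) : ZMod p) ^ n) := by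
    rw [map_pow, map_intCast]
  rw [h1, ← (ZMod.castHom (dvd_refl p) (IsLocalRing.ResidueField A)).map_one]
  exact (ZMod.castHom (dvd_refl p) (IsLocalRing.ResidueField A)).injective.eq_iff

/-- **The criterion.** -/
theorem act_eq_one_iff (hp : p.Prime) (hA : A.LiesOverPrime p) {σ : GQ}
    (hσ : A.IsFrobeniusAt σ p) (q : Nat.Primes) (hpq : p ≠ (q : ℕ)) (hpa : ¬ (p : ℤ) ∣ a) :
    R.act q σ = 1 ↔ Res a (q : ℕ) p := by
  have hcop : p.Coprime (q : ℕ) := (Nat.coprime_primes hp q.2).mpr hpq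
  have hchar : CharP (IsLocalRing.ResidueField A) p := charP_residue hp hA
  have hcyc : ((cyc (R.hζ q) σ : (ZMod (q : ℕ))ˣ) : ZMod (q : ℕ)) = p := cyc_frob (R.hζ q) hA hσ hcop
  have hαint : IsIntegral ℤ (R.α q) := by
    refine IsIntegral.of_pow q.2.pos ?_
    rw [R.hα q]
    exact isIntegral_intCast a
  set β : IsLocalRing.ResidueField A := redA A ⟨R.α q, hαint⟩ with hβ
  have hβq : β ^ (q : ℕ) = ((a : ℤ) : IsLocalRing.ResidueField A) := by
    rw [hβ, ← map_pow, ← map_intCast (redA A) a]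
    congr 1
    exact Subtype.ext (by simpa using R.hα q)
  have ha0 : ((a : ℤ) : IsLocalRing.ResidueField A) ≠ 0 := by
    rw [Ne, CharP.intCast_eq_zero_iff (IsLocalRing.ResidueField A) p]
    exact hpa
  have hβ0 : β ≠ 0 := by
    intro h
    rw [h, zero_pow q.2.ne_zero] at hβq
    exact ha0 hβq.symm
  have hfrob : redA A (σ • (⟨R.α q, hαint⟩ : Zbar)) = β ^ p := redA_frob hσ _
  have hone : cyc (R.hζ q) σ = 1 ↔ (q : ℕ) ∣ p - 1 := by
    rw [← Units.val_inj, hcyc, Units.val_one, ← ZMod.natCast_eq_zero_iff,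
      Nat.cast_sub hp.one_le, Nat.cast_one, sub_eq_zero]
  rw [Roots.act, aff_eq_one_iff, ← cyc_eq_one_iff (R.hζ q), hone, Res]
  refine and_congr_right fun hdvd => ?_
  have hpow : ((a : ℤ) : IsLocalRing.ResidueField A) ^ ((p - 1) / (q : ℕ)) = β ^ (p - 1) := by
    rw [← hβq, ← pow_mul, Nat.mul_div_cancel' hdvd]
  rw [← intCast_pow_eq_one_iff hp hA, hpow]
  have hp1 : β ^ (p - 1) = 1 ↔ β ^ p = β := by
    constructor
    · intro h
      conv_lhs => rw [← Nat.sub_add_cancel hp.one_le]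
      rw [pow_succ, h, one_mul]
    · intro h
      have h1 : β ^ (p - 1) * β = 1 * β := by
        rw [← pow_succ, Nat.sub_add_cancel hp.one_le, h, one_mul]
      exact mul_right_cancel₀ hβ0 h1
  rw [hp1, ← hfrob]
  constructor
  · intro h
    rw [hβ]
    congr 1
    exact Subtype.ext h
  · intro h
    have hc := kc_spec (R.hζ q) (R.hα q) R.ha σ
    set c := (kc (R.hζ q) (R.hα q) R.ha σ).val with hcdef
    have hζint : IsIntegral ℤ (R.ζ q ^ c) := ((R.hζ q).isIntegral q.2.pos).pow c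
    have h1 : σ • (⟨R.α q, hαint⟩ : Zbar) = ⟨R.ζ q ^ c, hζint⟩ * ⟨R.α q, hαint⟩ :=
      Subtype.ext hc
    rw [h1, map_mul, ← hβ] at h
    have h2 : redA A ⟨R.ζ q ^ c, hζint⟩ = 1 := mul_right_cancel₀ hβ0 (by rw [h, one_mul])
    have h3 : toVal A ⟨R.ζ q ^ c, hζint⟩ = 1 := by
      refine GalRep.eq_one_of_residue_eq_one hA hcop ?_ h2
      refine Subtype.ext ?_
      change (R.ζ q ^ c) ^ (q : ℕ) = 1
      rw [← pow_mul, mul_comm, pow_mul, (R.hζ q).pow_eq_one, one_pow]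
    have h4 : R.ζ q ^ c = 1 := congrArg Subtype.val h3
    rw [hc, h4, one_mul]

/-- a primitive root is not a `q`-th power residue -/
theorem not_res_of_orderOf (hp : p.Prime) {q : ℕ} (hq : q.Prime)
    (h : orderOf ((a : ℤ) : ZMod p) = p - 1) : ¬ Res a q p := by
  rintro ⟨h1, h2⟩
  have h3 := orderOf_dvd_of_pow_eq_one h2
  rw [h] at h3
  have h4 : 0 < p - 1 := by
    have := hp.two_le
    omega
  have h5 : 0 < (p - 1) / q := Nat.div_pos (Nat.le_of_dvd h4 h1) hq.pos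
  have h6 := Nat.le_of_dvd h5 h3
  have h7 := Nat.div_lt_self h4 hq.one_lt
  omega

end Fermat.Agent.Cor.Art
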