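import Fermat.Agent.Corollaries.Art.Two

/-!
# The joint action on the roots of `X ^ q - a` for several primes `q`

`joint_surjective` : if `a` is not a `q`-th power for any prime `q` and `a ≡ 2, 3 mod 4`, the Galois
group maps onto `∏_{q ∈ s} Aff q`.
-/

set_option autoImplicit false

open Fermat.Agent.Frob Fermat.Agent.FrobDensity

namespace Fermat.Agent.Cor.Art

local notation "Qbar" => AlgebraicClosure ℚ

instance instNeZeroPrimes (q : Nat.Primes) : NeZero (q : ℕ) := ⟨q.2.ne_zero⟩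

/-- a choice of roots of unity and of roots of `a` -/
structure Roots (a : ℤ) where
  /-- roots of unity -/
  ζ : Nat.Primes → Qbar
  /-- roots of `a` -/
  α : Nat.Primes → Qbar
  hζ : ∀ q, IsPrimitiveRoot (ζ q) (q : ℕ)
  hα : ∀ q, α q ^ (q : ℕ) = a
  ha : a ≠ 0

lemma nonempty_roots {a : ℤ} (ha : a ≠ 0) : Nonempty (Roots a) := by
  have h1 : ∀ q : Nat.Primes, ∃ ζ : Qbar, IsPrimitiveRoot ζ (q : ℕ) := fun q => by
    have : NeZero (((q : ℕ) : ℕ) : Qbar) := ⟨Nat.cast_ne_zero.mpr q.2.ne_zero⟩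
    exact HasEnoughRootsOfUnity.exists_primitiveRoot Qbar (q : ℕ)
  have h2 : ∀ q : Nat.Primes, ∃ α : Qbar, α ^ (q : ℕ) = a := fun q =>
    IsAlgClosed.exists_pow_nat_eq _ q.2.pos
  choose ζ hζ using h1
  choose α hα using h2
  exact ⟨⟨ζ, α, hζ, hα, ha⟩⟩

variable {a : ℤ} (R : Roots a)

/-- the action for one prime -/
noncomputable def Roots.act (q : Nat.Primes) : GQ →* Aff (q : ℕ) := aff (R.hζ q) (R.hα q) R.ha

/-- the joint action -/
noncomputable def Roots.joint (s : Finset Nat.Primes) : GQ →* (∀ i : s, Aff ((i : Nat.Primes) : ℕ)) :=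
  MonoidHom.pi fun i => R.act i

lemma Roots.joint_apply (s : Finset Nat.Primes) (σ : GQ) (i : s) : R.joint s σ i = R.act i σ := rfl

lemma Roots.act_eq {q : Nat.Primes} {σ : GQ} (h : cyc (R.hζ q) σ = 1) :
    R.act q σ = ⟨kc (R.hζ q) (R.hα q) R.ha σ, 1⟩ := by
  ext
  · rfl
  · exact congrArg Units.val h

variable {s : Finset Nat.Primes}

/-- the product of the other primes -/
def others (i : s) : ℕ := ∏ j ∈ (Finset.univ : Finset s).erase i, ((j : Nat.Primes) : ℕ)

lemma dvd_others {i j : s} (h : j ≠ i) : ((j : Nat.Primes) : ℕ) ∣ others i :=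
  Finset.dvd_prod_of_mem (fun j : s => ((j : Nat.Primes) : ℕ))
    (Finset.mem_erase.mpr ⟨h, Finset.mem_univ j⟩)

lemma others_ne_zero (i : s) : ((others i : ℕ) : ZMod ((i : Nat.Primes) : ℕ)) ≠ 0 := by
  rw [Ne, ZMod.natCast_eq_zero_iff, others]
  intro h
  obtain ⟨j, hj, hd⟩ := (i.1.2.prime.dvd_finsetProd_iff _).mp h
  have h1 := (Nat.prime_dvd_prime_iff_eq i.1.2 j.1.2).mp hd
  exact (Finset.mem_erase.mp hj).1 (Subtype.ext (Subtype.ext h1.symm))

lemma joint_pow {i : s} {σ : GQ} (h : ∀ j : s, j ≠ i → cyc (R.hζ j) σ = 1) :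
    R.joint s σ ^ others i = Pi.mulSingle i (R.act i σ ^ others i) := by
  funext j
  rw [Pi.pow_apply, R.joint_apply]
  by_cases hj : j = i
  · subst hj
    rw [Pi.mulSingle_eq_same]
  · rw [Pi.mulSingle_eq_of_ne hj, R.act_eq (h j hj), Aff.translation_pow,
      (ZMod.natCast_eq_zero_iff _ _).mpr (dvd_others hj), zero_mul]
    rfl

/-- a translation at `i` gives all translations at `i` -/
lemma mulSingle_translation_mem {i : s} {σ : GQ} (h : ∀ j : s, cyc (R.hζ j) σ = 1)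
    (hc : kc (R.hζ i) (R.hα i) R.ha σ ≠ 0) (t : ZMod ((i : Nat.Primes) : ℕ)) :
    Pi.mulSingle i (⟨t, 1⟩ : Aff ((i : Nat.Primes) : ℕ)) ∈ (R.joint s).range := by
  have : Fact (Nat.Prime ((i : Nat.Primes) : ℕ)) := ⟨i.1.2⟩
  have h1 := joint_pow R (i := i) (σ := σ) fun j _ => h j
  rw [R.act_eq (h i), Aff.translation_pow] at h1
  set t₀ : ZMod ((i : Nat.Primes) : ℕ) := (others i : ℕ) * kc (R.hζ i) (R.hα i) R.ha σ with ht₀
  have ht0 : t₀ ≠ 0 := mul_ne_zero (others_ne_zero i) hc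
  have h2 : Pi.mulSingle i (⟨t, 1⟩ : Aff ((i : Nat.Primes) : ℕ)) =
      (R.joint s σ ^ others i) ^ (t * t₀⁻¹).val := by
    rw [h1, ← Pi.mulSingle_pow, Aff.translation_pow, ZMod.natCast_zmod_val, mul_assoc,
      inv_mul_cancel₀ ht0, mul_one]
  rw [h2]
  exact pow_mem (pow_mem (MonoidHom.mem_range.mpr ⟨σ, rfl⟩) _) _

lemma cyc_comm_eq_one {q : ℕ} [NeZero q] {ζ : Qbar} (hζ : IsPrimitiveRoot ζ q) (σ τ : GQ) :
    cyc hζ (σ * τ * σ⁻¹ * τ⁻¹) = 1 := by
  rw [map_mul, map_mul, map_mul, map_inv, map_inv, mul_comm (cyc hζ σ), mul_inv_cancel_right,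
    mul_inv_cancel]

/-- all translations at all places are in the image -/
theorem translation_mem (h4 : a % 4 = 2 ∨ a % 4 = 3)
    (hpow : ∀ q : ℕ, q.Prime → ∀ b : ℚ, b ^ q ≠ a) (i : s) (t : ZMod ((i : Nat.Primes) : ℕ)) :
    Pi.mulSingle i (⟨t, 1⟩ : Aff ((i : Nat.Primes) : ℕ)) ∈ (R.joint s).range := by
  by_cases hi : ((i : Nat.Primes) : ℕ) = 2
  · obtain ⟨A, hA, -⟩ := Frob.exists_frobenius 2 Nat.prime_two
    have hα : R.α i ^ 2 = a := by
      have := R.hα i
      rwa [hi] at this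
    obtain ⟨σ, hσ, hne⟩ := exists_inertia_sqrt hA h4 hα
    refine mulSingle_translation_mem R (σ := σ) (fun j => ?_) ?_ t
    · rw [cyc_eq_one_iff]
      by_cases hj : ((j : Nat.Primes) : ℕ) = 2
      · have h1 := (R.hζ j).pow_eq_one
        have h2 := R.hζ j
        rw [hj] at h2
        have h3 : R.ζ j = -1 := h2.eq_neg_one_of_two_right
        rw [h3, map_neg, map_one]
      · exact GalRep.inertia_fix_rootOfUnity hA
          ((Nat.coprime_primes Nat.prime_two j.1.2).mpr fun h => hj h.symm) j.1.2.ne_zero hσ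
          (R.hζ j).pow_eq_one
    · rw [Ne, kc_eq_zero_iff]
      exact hne
  · obtain ⟨σ, τ, h1⟩ := exists_commutator (R.hζ i) (R.hα i) R.ha i.1.2 hi (hpow _ i.1.2)
    exact mulSingle_translation_mem R (fun j => cyc_comm_eq_one (R.hζ j) σ τ) h1 t

/-- **The joint action is surjective.** -/
theorem joint_surjective (h4 : a % 4 = 2 ∨ a % 4 = 3)
    (hpow : ∀ q : ℕ, q.Prime → ∀ b : ℚ, b ^ q ≠ a) : Function.Surjective (R.joint s) := by
  classical
  rw [← MonoidHom.range_eq_top, eq_top_iff]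
  intro x _
  refine Subgroup.pi_mem_of_mulSingle_mem _ fun i => ?_
  -- an inertia element at `i` with given cyclotomic character
  have : Fact (Nat.Prime ((i : Nat.Primes) : ℕ)) := ⟨i.1.2⟩
  obtain ⟨A, hA, -⟩ := Frob.exists_frobenius ((i : Nat.Primes) : ℕ) i.1.2
  set u : (ZMod ((i : Nat.Primes) : ℕ))ˣ := (x i).u with hu
  have hη : IsPrimitiveRoot (R.ζ i ^ ((u : (ZMod ((i : Nat.Primes) : ℕ))ˣ) :
      ZMod ((i : Nat.Primes) : ℕ)).val) ((i : Nat.Primes) : ℕ) :=
    (R.hζ i).pow_of_coprime _ (ZMod.val_coe_unit_coprime u)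
  obtain ⟨σ, hσ, hσζ⟩ := S36norm.exists_inertia_zeta i.1.2 hA (R.hζ i) hη
  have hcyc : cyc (R.hζ i) σ = u := by
    apply Units.ext
    rw [cyc_eq_of_pow (R.hζ i) hσζ, ZMod.natCast_zmod_val]
  have hcyc' : ∀ j : s, j ≠ i → cyc (R.hζ j) σ = 1 := by
    intro j hj
    rw [cyc_eq_one_iff]
    refine GalRep.inertia_fix_rootOfUnity hA ?_ j.1.2.ne_zero hσ (R.hζ j).pow_eq_one
    exact (Nat.coprime_primes i.1.2 j.1.2).mpr fun h =>
      hj (Subtype.ext (Subtype.ext h.symm))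
  -- the translations at the other places
  let y : ∀ j : s, Aff ((j : Nat.Primes) : ℕ) := fun j =>
    ⟨if j = i then 0 else (R.act j σ).c, 1⟩
  have hy : y ∈ (R.joint s).range :=
    Subgroup.pi_mem_of_mulSingle_mem _ fun j => translation_mem R h4 hpow j _
  have h1 : R.joint s σ * y⁻¹ = Pi.mulSingle i (R.act i σ) := by
    funext j
    rw [Pi.mul_apply, Pi.inv_apply, R.joint_apply]
    by_cases hj : j = i
    · subst hj
      rw [Pi.mulSingle_eq_same]
      have h2 : y j = 1 := by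
        ext
        · simp [y]
        · rfl
      rw [h2, inv_one, mul_one]
    · rw [Pi.mulSingle_eq_of_ne hj, mul_inv_eq_one]
      ext
      · simp [y, hj]
      · exact congrArg Units.val (hcyc' j hj)
  have h2 : Pi.mulSingle i (R.act i σ) ∈ (R.joint s).range := by
    rw [← h1]
    exact mul_mem (MonoidHom.mem_range.mpr ⟨σ, rfl⟩) (inv_mem hy)
  have h3 : x i = ⟨(x i).c - (R.act i σ).c, 1⟩ * R.act i σ := by
    ext
    · simp
    · rw [Aff.mul_u, one_mul]
      exact congrArg Units.val hcyc.symm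
  rw [h3, Pi.mulSingle_mul]
  exact mul_mem (translation_mem R h4 hpow i _) h2

end Fermat.Agent.Cor.Art
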