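import Fermat.Agent.Frob.Chebotarev
import Fermat.Agent.Frob.LDens
import Fermat.Agent.S36.NormInertia
import Fermat.Agent.TW.InertiaField

/-!
# The Galois action on the roots of `X ^ q - a`

`Aff q` is the group `ℤ/q ⋊ (ℤ/q)ˣ` of the maps `x ↦ u x + c`. For a primitive `q`-th root of unity `ζ` and
`α ^ q = a` we have `aff : Gal(ℚ̄/ℚ) → Aff q`, `σ(α ζ ^ x) = α ζ ^ (u x + c)`.
-/

set_option autoImplicit false

open Fermat.Agent.Frob Fermat.Agent.FrobDensity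

namespace Fermat.Agent.Cor.Art

/-- the affine maps `x ↦ u x + c` of `ℤ/q` -/
@[ext] structure Aff (q : ℕ) where
  /-- the translation part -/
  c : ZMod q
  /-- the linear part -/
  u : (ZMod q)ˣ

namespace Aff

variable {q : ℕ}

instance : Mul (Aff q) := ⟨fun a b => ⟨a.c + (a.u : ZMod q) * b.c, a.u * b.u⟩⟩
instance : One (Aff q) := ⟨⟨0, 1⟩⟩
instance : Inv (Aff q) := ⟨fun a => ⟨-(((a.u⁻¹ : (ZMod q)ˣ) : ZMod q) * a.c), a.u⁻¹⟩⟩

@[simp] lemma mul_c (a b : Aff q) : (a * b).c = a.c + (a.u : ZMod q) * b.c := rfl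
@[simp] lemma mul_u (a b : Aff q) : (a * b).u = a.u * b.u := rfl
@[simp] lemma one_c : (1 : Aff q).c = 0 := rfl
@[simp] lemma one_u : (1 : Aff q).u = 1 := rfl
@[simp] lemma inv_c (a : Aff q) : a⁻¹.c = -(((a.u⁻¹ : (ZMod q)ˣ) : ZMod q) * a.c) := rfl
@[simp] lemma inv_u (a : Aff q) : a⁻¹.u = a.u⁻¹ := rfl

instance : Group (Aff q) := Group.ofLeftAxioms
  (fun a b c => by
    ext
    · simp only [mul_c, mul_u, Units.val_mul]
      ring
    · simp only [mul_u, mul_assoc])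
  (fun a => by
    ext
    · simp
    · simp)
  (fun a => by
    ext
    · simp
    · simp)

/-- `Aff q` as a set -/
def equivProd (q : ℕ) : Aff q ≃ ZMod q × (ZMod q)ˣ where
  toFun a := (a.c, a.u)
  invFun x := ⟨x.1, x.2⟩
  left_inv _ := rfl
  right_inv _ := rfl

instance [NeZero q] : Finite (Aff q) := Finite.of_equiv _ (equivProd q).symm

lemma card (hq : q.Prime) : Nat.card (Aff q) = q * (q - 1) := by
  have : Fact q.Prime := ⟨hq⟩
  rw [Nat.card_congr (equivProd q), Nat.card_prod, Nat.card_zmod, Nat.card_eq_fintype_card,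
    ZMod.card_units]

lemma translation_pow (t : ZMod q) (n : ℕ) : (⟨t, 1⟩ : Aff q) ^ n = ⟨n * t, 1⟩ := by
  induction n with
  | zero =>
    ext
    · simp
    · simp
  | succ n ih =>
    rw [pow_succ, ih]
    ext
    · simp only [mul_c, Units.val_one, one_mul]
      push_cast
      ring
    · simp

end Aff

section Kummer

local notation "Qbar" => AlgebraicClosure ℚ

variable {q : ℕ} [NeZero q] {ζ α : Qbar}

lemma exists_kc (hζ : IsPrimitiveRoot ζ q) {a : ℤ} (hα : α ^ q = a) (ha : a ≠ 0) (σ : GQ) :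
    ∃ i : ℕ, σ α = ζ ^ i * α := by
  have hα0 : α ≠ 0 := by
    rintro rfl
    rw [zero_pow (NeZero.ne q)] at hα
    exact ha (by exact_mod_cast hα.symm)
  have h1 : (σ α / α) ^ q = 1 := by
    rw [div_pow, ← map_pow, hα, map_intCast, div_self]
    exact_mod_cast ha
  obtain ⟨i, -, hi⟩ := hζ.eq_pow_of_pow_eq_one h1
  exact ⟨i, by rw [hi, div_mul_cancel₀ _ hα0]⟩

/-- the Kummer cocycle -/
noncomputable def kc (hζ : IsPrimitiveRoot ζ q) {a : ℤ} (hα : α ^ q = a) (ha : a ≠ 0) (σ : GQ) :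
    ZMod q := ((exists_kc hζ hα ha σ).choose : ℕ)

variable (hζ : IsPrimitiveRoot ζ q) {a : ℤ} (hα : α ^ q = a) (ha : a ≠ 0)

include hζ in
omit [NeZero q] in
lemma zeta_pow_val (n : ℕ) : ζ ^ ((n : ZMod q)).val = ζ ^ n := by
  rw [ZMod.val_natCast]
  conv_rhs => rw [← Nat.div_add_mod n q, pow_add, pow_mul, hζ.pow_eq_one, one_pow, one_mul]

lemma kc_spec (σ : GQ) : σ α = ζ ^ (kc hζ hα ha σ).val * α := by
  rw [kc, zeta_pow_val hζ]
  exact (exists_kc hζ hα ha σ).choose_spec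

include ha hα in
omit [NeZero q] in
lemma alpha_ne_zero (hq : q ≠ 0) : α ≠ 0 := by
  rintro rfl
  rw [zero_pow hq] at hα
  exact ha (by exact_mod_cast hα.symm)

lemma kc_eq_of {σ : GQ} {n : ℕ} (h : σ α = ζ ^ n * α) : kc hζ hα ha σ = n := by
  have h1 := kc_spec hζ hα ha σ
  rw [h] at h1
  have h2 := mul_right_cancel₀ (alpha_ne_zero hα ha (NeZero.ne q)) h1
  rw [← zeta_pow_val hζ] at h2
  exact (ZMod.val_injective q (hζ.pow_inj (ZMod.val_lt _) (ZMod.val_lt _) h2)).symm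

/-- **The action on the roots of `X ^ q - a`.** -/
noncomputable def aff : GQ →* Aff q where
  toFun σ := ⟨kc hζ hα ha σ, cyc hζ σ⟩
  map_one' := by
    ext
    · rw [Aff.one_c, kc_eq_of hζ hα ha (n := 0) (by simp), Nat.cast_zero]
    · rw [map_one, Aff.one_u]
  map_mul' σ τ := by
    ext
    · rw [Aff.mul_c]
      have h1 : (σ * τ) α = ζ ^ ((kc hζ hα ha σ).val +
          ((cyc hζ σ : (ZMod q)ˣ) : ZMod q).val * (kc hζ hα ha τ).val) * α := by
        rw [AlgEquiv.mul_apply, kc_spec hζ hα ha τ, map_mul, map_pow, cyc_spec hζ σ,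
          kc_spec hζ hα ha σ, ← pow_mul, pow_add]
        ring
      rw [kc_eq_of hζ hα ha h1]
      push_cast
      rw [ZMod.natCast_zmod_val, ZMod.natCast_zmod_val, ZMod.natCast_zmod_val]
    · rw [map_mul, Aff.mul_u]

@[simp] lemma aff_c (σ : GQ) : (aff hζ hα ha σ).c = kc hζ hα ha σ := rfl
@[simp] lemma aff_u (σ : GQ) : (aff hζ hα ha σ).u = cyc hζ σ := rfl

lemma kc_eq_zero_iff (σ : GQ) : kc hζ hα ha σ = 0 ↔ σ α = α := by
  constructor
  · intro h
    rw [kc_spec hζ hα ha σ, h, ZMod.val_zero, pow_zero, one_mul]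
  · intro h
    rw [kc_eq_of hζ hα ha (n := 0) (by rw [h, pow_zero, one_mul]), Nat.cast_zero]

lemma cyc_eq_one_iff (σ : GQ) : cyc hζ σ = 1 ↔ σ ζ = ζ := by
  constructor
  · intro h
    rw [cyc_spec hζ σ, h, Units.val_one]
    have h1 := zeta_pow_val hζ 1
    rwa [Nat.cast_one, pow_one] at h1
  · intro h
    apply Units.ext
    rw [cyc_eq_of_pow hζ (k := 1) (by rw [h, pow_one]), Nat.cast_one, Units.val_one]

lemma aff_eq_one_iff (σ : GQ) : aff hζ hα ha σ = 1 ↔ σ ζ = ζ ∧ σ α = α := by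
  rw [← cyc_eq_one_iff hζ, ← kc_eq_zero_iff hζ hα ha]
  constructor
  · intro h
    exact ⟨by rw [← aff_u hζ hα ha, h, Aff.one_u], by rw [← aff_c hζ hα ha, h, Aff.one_c]⟩
  · rintro ⟨h1, h2⟩
    ext
    · rw [aff_c, h2, Aff.one_c]
    · rw [aff_u, h1, Aff.one_u]

/-- all roots of `X ^ q - a` are conjugate if `a` is not a `q`-th power -/
lemma exists_kc_eq (hq : q.Prime) (hpow : ∀ b : ℚ, b ^ q ≠ a) (i : ZMod q) :
    ∃ σ : GQ, kc hζ hα ha σ = i := by
  have hirr : Irreducible (Polynomial.X ^ q - Polynomial.C (a : ℚ)) :=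
    X_pow_sub_C_irreducible_of_prime hq hpow
  have hroot : ∀ β : Qbar, β ^ q = a →
      minpoly ℚ β = Polynomial.X ^ q - Polynomial.C (a : ℚ) := by
    intro β hβ
    refine (minpoly.eq_of_irreducible_of_monic hirr ?_
      (Polynomial.monic_X_pow_sub_C _ hq.ne_zero)).symm
    rw [map_sub, map_pow, Polynomial.aeval_X, Polynomial.aeval_C, hβ]
    simp
  have h1 : IsConjRoot ℚ (ζ ^ i.val * α) α := by
    rw [IsConjRoot, hroot α hα, hroot (ζ ^ i.val * α)]
    rw [mul_pow, ← pow_mul, mul_comm i.val q, pow_mul, hζ.pow_eq_one, one_pow, one_mul, hα]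
  obtain ⟨σ, hσ⟩ := isConjRoot_iff_exists_algEquiv.mp h1
  exact ⟨σ, by rw [kc_eq_of hζ hα ha hσ, ZMod.natCast_zmod_val]⟩

/-- there are translations in the image -/
lemma exists_translation (hq : q.Prime) (hpow : ∀ b : ℚ, b ^ q ≠ a) :
    ∃ τ : GQ, cyc hζ τ = 1 ∧ kc hζ hα ha τ ≠ 0 := by
  by_contra hcon
  push Not at hcon
  have : Fact q.Prime := ⟨hq⟩
  choose f hf using exists_kc_eq hζ hα ha hq hpow
  have hinj : Function.Injective fun i => cyc hζ (f i) := by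
    intro i j hij
    have h1 : cyc hζ ((f i)⁻¹ * f j) = 1 := by
      rw [map_mul, map_inv, inv_mul_eq_one]
      exact hij
    have h2 := hcon _ h1
    have h3 : aff hζ hα ha ((f i)⁻¹ * f j) = 1 := by
      ext
      · rw [aff_c, h2, Aff.one_c]
      · rw [aff_u, h1, Aff.one_u]
    rw [map_mul, map_inv, inv_mul_eq_one] at h3
    rw [← hf i, ← hf j, ← aff_c hζ hα ha, ← aff_c hζ hα ha, h3]
  have h4 := Fintype.card_le_of_injective _ hinj
  rw [ZMod.card, ZMod.card_units] at h4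
  have := hq.two_le
  omega

/-- a commutator which is a translation, `q` odd -/
lemma exists_commutator (hq : q.Prime) (hq2 : q ≠ 2) (hpow : ∀ b : ℚ, b ^ q ≠ a) :
    ∃ σ τ : GQ, kc hζ hα ha (σ * τ * σ⁻¹ * τ⁻¹) ≠ 0 := by
  have : Fact q.Prime := ⟨hq⟩
  obtain ⟨τ, hτ, hc⟩ := exists_translation hζ hα ha hq hpow
  obtain ⟨A, hA, -⟩ := Frob.exists_frobenius q hq
  obtain ⟨σ, -, hσ⟩ := S36norm.exists_inertia_zeta hq hA hζ hζ.inv
  have hu : ((cyc hζ σ : (ZMod q)ˣ) : ZMod q) = -1 := by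
    have h1 : σ ζ = ζ ^ (q - 1) := by
      rw [hσ]
      refine (eq_inv_of_mul_eq_one_left ?_).symm
      rw [← pow_succ, Nat.sub_add_cancel hq.one_le, hζ.pow_eq_one]
    rw [cyc_eq_of_pow hζ h1, Nat.cast_sub hq.one_le]
    simp
  refine ⟨σ, τ, ?_⟩
  rw [← aff_c hζ hα ha, map_mul, map_mul, map_mul, map_inv, map_inv]
  simp only [Aff.mul_c, Aff.mul_u, Aff.inv_c, Aff.inv_u, aff_c, aff_u, hτ, hu, mul_one, inv_one,
    Units.val_one, one_mul, Units.val_mul]
  have h3 : ((cyc hζ σ : (ZMod q)ˣ) : ZMod q) * (((cyc hζ σ)⁻¹ : (ZMod q)ˣ) : ZMod q) = 1 :=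
    Units.mul_inv _
  rw [hu] at h3
  have h4 : (((cyc hζ σ)⁻¹ : (ZMod q)ˣ) : ZMod q) = -1 := by linear_combination -h3
  rw [h4]
  intro h5
  have h6 : (2 : ZMod q) * kc hζ hα ha τ = 0 := by linear_combination -h5
  rcases mul_eq_zero.mp h6 with h7 | h7
  · have h8 : ((2 : ℕ) : ZMod q) = 0 := by exact_mod_cast h7
    rw [ZMod.natCast_eq_zero_iff] at h8
    exact hq2 ((Nat.prime_dvd_prime_iff_eq hq Nat.prime_two).mp h8)
  · exact hc h7

end Kummer

end Fermat.Agent.Cor.Art
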