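import Fermat.Agent.Corollaries.Art.Crit
import Fermat.Agent.Corollaries.Cheb.NatMain

/-!
# The unconditional half of Artin's primitive root conjecture

`a` an integer, not a perfect power, `a ≡ 2, 3 mod 4` (for instance `2`, `3`, `10`).

* `density_not_res` : for a finite set `s` of primes the primes `p` such that for no `q ∈ s`
  (`p ≡ 1 mod q` and `a` is a `q`-th power mod `p`) have natural density `∏_{q ∈ s} (1 - 1 / (q (q - 1)))`.
* `artin_upper` : the upper natural density of the primes `p` for which `a` is a primitive root modulo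
  `p` is at most Artin's constant `∏_q (1 - 1 / (q (q - 1)))`.
-/

set_option autoImplicit false

open NumberField Filter Topology
open Fermat.Agent.Frob Fermat.Agent.FrobDensity Fermat.Agent.Cor.Cheb

namespace Fermat.Agent.Cor.Art

/-- the factor of Artin's constant at `q` -/
noncomputable def fac (q : Nat.Primes) : ℝ := 1 - 1 / (((q : ℕ) : ℝ) * (((q : ℕ) : ℝ) - 1))

/-- **Artin's constant** `0.3739558136...` -/
noncomputable def artinConst : ℝ := ∏' q : Nat.Primes, fac q

section

variable {a : ℤ}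

lemma joint_level (R : Roots a) (s : Finset Nat.Primes) : ∃ L : IntermediateField ℚ (AlgebraicClosure ℚ), FiniteDimensional ℚ L ∧
    ∀ σ : GQ, (∀ x ∈ L, σ x = x) → R.joint s σ = 1 := by
  have hfd : ∀ i : s, FiniteDimensional ℚ (IntermediateField.adjoin ℚ ({R.ζ i, R.α i} :
      Set (AlgebraicClosure ℚ))) := fun i =>
    IntermediateField.finiteDimensional_adjoin fun x _ => Algebra.IsIntegral.isIntegral x
  refine ⟨⨆ i : s, IntermediateField.adjoin ℚ {R.ζ i, R.α i},
    IntermediateField.finiteDimensional_iSup_of_finite, fun σ hσ => ?_⟩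
  funext i
  rw [R.joint_apply, Pi.one_apply, Roots.act, aff_eq_one_iff]
  have h1 : IntermediateField.adjoin ℚ ({R.ζ i, R.α i} : Set (AlgebraicClosure ℚ)) ≤
      ⨆ i : s, IntermediateField.adjoin ℚ {R.ζ i, R.α i} :=
    le_iSup (fun i : s => IntermediateField.adjoin ℚ ({R.ζ i, R.α i} :
      Set (AlgebraicClosure ℚ))) i
  exact ⟨hσ _ (h1 (IntermediateField.subset_adjoin _ _ (by simp))),
    hσ _ (h1 (IntermediateField.subset_adjoin _ _ (by simp)))⟩

lemma card_ne_one (q : Nat.Primes) :
    (Nat.card {x : Aff (q : ℕ) // x ≠ 1} : ℝ) / Nat.card (Aff (q : ℕ)) = fac q := by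
  classical
  have : Fintype (Aff (q : ℕ)) := Fintype.ofFinite _
  have h1 : Nat.card {x : Aff (q : ℕ) // x ≠ 1} = Nat.card (Aff (q : ℕ)) - 1 := by
    rw [Nat.card_eq_fintype_card, Nat.card_eq_fintype_card, Fintype.card_subtype_compl,
      Fintype.card_subtype_eq]
  have h2 := Aff.card q.2
  have hq : (2 : ℝ) ≤ ((q : ℕ) : ℝ) := by exact_mod_cast q.2.two_le
  have h3 : (Nat.card (Aff (q : ℕ)) : ℝ) = ((q : ℕ) : ℝ) * (((q : ℕ) : ℝ) - 1) := by
    rw [h2, Nat.cast_mul, Nat.cast_sub q.2.one_le, Nat.cast_one]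
  have h4 : 1 ≤ Nat.card (Aff (q : ℕ)) := Nat.card_pos
  rw [h1, Nat.cast_sub h4, h3, fac, Nat.cast_one]
  have h5 : ((q : ℕ) : ℝ) * (((q : ℕ) : ℝ) - 1) ≠ 0 := by
    have : 0 < ((q : ℕ) : ℝ) * (((q : ℕ) : ℝ) - 1) := by
      apply mul_pos <;> linarith
    exact this.ne'
  rw [sub_div, div_self h5]

open Classical in
/-- mean value form -/
theorem hasMean_not_res (s : Finset Nat.Primes) (h4 : a % 4 = 2 ∨ a % 4 = 3)
    (hpow : ∀ q : ℕ, q.Prime → ∀ b : ℚ, b ^ q ≠ a) :
    HasMean (fun p => if ∀ q ∈ s, ¬ Res a (q : ℕ) p then (1 : ℝ) else 0) (∏ q ∈ s, fac q) := by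
  have ha : a ≠ 0 := by
    rintro rfl
    omega
  obtain ⟨R⟩ := nonempty_roots ha
  have : ∀ i : s, Fintype (Aff ((i : Nat.Primes) : ℕ)) := fun i => Fintype.ofFinite _
  let G := ∀ i : s, Aff ((i : Nat.Primes) : ℕ)
  have hsurj := joint_surjective R (s := s) h4 hpow
  have hmean := hasMean_class (r := R.joint s) (fun g => hasMean_NC hsurj (joint_level R s) g)
    (f := fun g : G => if ∀ i, g i ≠ 1 then (1 : ℝ) else 0) (fun x g => by
      have h1 : (∀ i, (x⁻¹ * g * x) i ≠ 1) ↔ ∀ i, g i ≠ 1 := by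
        refine forall_congr' fun i => not_congr ?_
        rw [Pi.mul_apply, Pi.mul_apply, Pi.inv_apply]
        constructor
        · intro h
          have h2 : g i = x i * ((x i)⁻¹ * g i * x i) * (x i)⁻¹ := by group
          rw [h2, h]
          group
        · intro h
          rw [h]
          group
      simp only [h1])
  have hval : (∑ g : G, if ∀ i, g i ≠ 1 then (1 : ℝ) else 0) / Nat.card G = ∏ q ∈ s, fac q := by
    rw [Finset.sum_boole, ← Fintype.card_subtype, ← Nat.card_eq_fintype_card,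
      Nat.card_congr (Equiv.subtypePiEquivPi (p := fun (i : s) (x : Aff ((i : Nat.Primes) : ℕ)) => x ≠ 1)),
      Nat.card_pi, Nat.card_pi, Nat.cast_prod, Nat.cast_prod, ← Finset.prod_div_distrib]
    rw [← Finset.prod_coe_sort s fac]
    exact Finset.prod_congr rfl fun (i : s) _ => card_ne_one (i : Nat.Primes)
  rw [hval] at hmean
  refine hmean.congr (a.natAbs.primeFactors ∪ Finset.image (fun q : Nat.Primes => (q : ℕ)) s) fun p hp hpS => ?_
  rw [Finset.mem_union, not_or, Nat.mem_primeFactors] at hpS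
  have hpa : ¬ (p : ℤ) ∣ a := fun h => hpS.1 ⟨hp, Int.natCast_dvd.mp h, Int.natAbs_ne_zero.mpr R.ha⟩
  obtain ⟨A, hA, hσ⟩ := exists_frob_place hp
  have h1 : (∀ i : s, R.joint s (frob p) i ≠ 1) ↔ ∀ q ∈ s, ¬ Res a (q : ℕ) p := by
    constructor
    · intro h q hq
      have h2 := h ⟨q, hq⟩
      rw [R.joint_apply] at h2
      rwa [Ne, act_eq_one_iff R hp hA hσ q (fun h3 =>
        hpS.2 (Finset.mem_image.mpr ⟨q, hq, h3.symm⟩)) hpa] at h2
    · intro h i
      rw [R.joint_apply, Ne, act_eq_one_iff R hp hA hσ i (fun h3 =>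
        hpS.2 (Finset.mem_image.mpr ⟨i, i.2, h3.symm⟩)) hpa]
      exact h i i.2
  simp only [h1]

open Classical in
/-- **Density of the primes modulo which `a` is a primitive root "at the primes of `s`"**: the primes
`p` such that for no `q ∈ s` (`q ∣ p - 1` and `a ^ ((p - 1) / q) = 1` in `ℤ/p`) have natural density
`∏_{q ∈ s} (1 - 1 / (q (q - 1)))`. -/
theorem density_not_res (s : Finset Nat.Primes) (h4 : a % 4 = 2 ∨ a % 4 = 3)
    (hpow : ∀ q : ℕ, q.Prime → ∀ b : ℚ, b ^ q ≠ a) :
    Tendsto (fun x : ℕ => (((Finset.range (x + 1)).filter fun p : ℕ =>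
      p.Prime ∧ ∀ q ∈ s, ¬ Res a (q : ℕ) p).card : ℝ) / Nat.primeCounting x) atTop
      (𝓝 (∏ q ∈ s, fac q)) := by
  have h1 := hasMean_not_res s h4 hpow
  have h2 := Tendsto.div h1 prime_number_theorem one_ne_zero
  rw [div_one] at h2
  refine h2.congr' ?_
  filter_upwards [eventually_gt_atTop 1] with x hx
  have hx0 : (0 : ℝ) < x := by exact_mod_cast (by omega : 0 < x)
  have hl : 0 < Real.log (x : ℝ) := Real.log_pos (by exact_mod_cast hx)
  have h3 : ∑ p ∈ primesTo x, (if ∀ q ∈ s, ¬ Res a (q : ℕ) p then (1 : ℝ) else 0) =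
      (((Finset.range (x + 1)).filter fun p : ℕ =>
        p.Prime ∧ ∀ q ∈ s, ¬ Res a (q : ℕ) p).card : ℝ) := by
    rw [Finset.sum_boole, primesTo, Finset.filter_filter]
  simp only [Pi.div_apply]
  rw [h3]
  rcases eq_or_ne (Nat.primeCounting x : ℝ) 0 with h0 | h0
  · simp only [h0, zero_mul, zero_div, div_zero]
  · field_simp

/-- the number of the primes `p ≤ x` for which `a` is a primitive root modulo `p` -/
noncomputable def primRootCount (a : ℤ) (x : ℕ) : ℕ :=
  Nat.card {p : ℕ // p.Prime ∧ p ≤ x ∧ orderOf ((a : ℤ) : ZMod p) = p - 1}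

open Classical in
lemma primRootCount_le (s : Finset Nat.Primes) (x : ℕ) :
    primRootCount a x ≤ ((Finset.range (x + 1)).filter fun p : ℕ =>
      p.Prime ∧ ∀ q ∈ s, ¬ Res a (q : ℕ) p).card := by
  have h1 : primRootCount a x = ((Finset.range (x + 1)).filter fun p : ℕ =>
      p.Prime ∧ orderOf ((a : ℤ) : ZMod p) = p - 1).card := by
    rw [primRootCount, ← Fintype.card_coe, ← Nat.card_eq_fintype_card]
    refine Nat.card_congr (Equiv.subtypeEquivRight fun p => ?_)
    rw [Finset.mem_filter, Finset.mem_range, Nat.lt_succ_iff]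
    tauto
  rw [h1]
  refine Finset.card_le_card fun p hp => ?_
  rw [Finset.mem_filter] at hp ⊢
  exact ⟨hp.1, hp.2.1, fun q _ => not_res_of_orderOf hp.2.1 q.2 hp.2.2⟩

lemma fac_eq (q : Nat.Primes) : fac q = 1 + -(1 / (((q : ℕ) : ℝ) * (((q : ℕ) : ℝ) - 1))) := by
  rw [fac, sub_eq_add_neg]

/-- the product defining Artin's constant converges -/
theorem multipliable_fac : Multipliable fac := by
  have h1 : Summable fun q : Nat.Primes => -(1 / (((q : ℕ) : ℝ) * (((q : ℕ) : ℝ) - 1))) := by
    refine Summable.neg ?_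
    have h2 : Summable fun q : Nat.Primes => 2 * ((q : ℕ) : ℝ) ^ (-2 : ℝ) :=
      (Nat.Primes.summable_rpow.mpr (by norm_num)).mul_left 2
    refine Summable.of_nonneg_of_le (fun q => ?_) (fun q => ?_) h2
    · have hq : (2 : ℝ) ≤ ((q : ℕ) : ℝ) := by exact_mod_cast q.2.two_le
      have h3 : (0 : ℝ) ≤ ((q : ℕ) : ℝ) - 1 := by linarith
      positivity
    · have hq : (2 : ℝ) ≤ ((q : ℕ) : ℝ) := by exact_mod_cast q.2.two_le
      rw [Real.rpow_neg (by linarith), Real.rpow_two, ← div_eq_mul_inv,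
        div_le_div_iff₀ (by nlinarith) (by positivity)]
      nlinarith
  have h2 := Real.multipliable_one_add_of_summable h1
  refine h2.congr fun q => ?_
  rw [fac_eq]

/-- **The unconditional half of Artin's primitive root conjecture**: for `a ≡ 2, 3 mod 4` which is
not a perfect power, the upper natural density of the primes for which `a` is a primitive root is
at most Artin's constant. -/
theorem artin_upper (h4 : a % 4 = 2 ∨ a % 4 = 3) (hpow : ∀ q : ℕ, q.Prime → ∀ b : ℚ, b ^ q ≠ a)
    {ε : ℝ} (hε : 0 < ε) :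
    ∀ᶠ x : ℕ in atTop, (primRootCount a x : ℝ) / Nat.primeCounting x < artinConst + ε := by
  classical
  have h1 : Tendsto (fun s : Finset Nat.Primes => ∏ q ∈ s, fac q) atTop (𝓝 artinConst) :=
    multipliable_fac.hasProd
  obtain ⟨s, hs⟩ := (h1.eventually_lt_const (show artinConst < artinConst + ε by linarith)).exists
  filter_upwards [(density_not_res s h4 hpow).eventually_lt_const hs] with x hx
  refine lt_of_le_of_lt ?_ hx
  have h2 := primRootCount_le (a := a) s x
  gcongr

/-- An integer `≡ 2 mod 4` is not a perfect power. -/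
lemma pow_ne_of_two_mod_four (h : a % 4 = 2) (q : ℕ) (hq : q.Prime) (b : ℚ) : b ^ q ≠ a := by
  intro hb
  have h1 : IsIntegral ℤ b := by
    refine IsIntegral.of_pow hq.pos ?_
    rw [hb]
    exact isIntegral_intCast a
  obtain ⟨m, hm⟩ := IsIntegrallyClosed.isIntegral_iff.mp h1
  have hm' : (m : ℚ) = b := hm
  rw [← hm'] at hb
  have h2 : m ^ q = a := by exact_mod_cast hb
  have h3 : (2 : ℤ) ∣ m := by
    refine Int.prime_two.dvd_of_dvd_pow (n := q) ?_
    rw [h2]
    omega
  have h4 : (4 : ℤ) ∣ m ^ q := by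
    have h5 : m ^ 2 ∣ m ^ q := pow_dvd_pow m hq.two_le
    have h6 : (2 : ℤ) ^ 2 ∣ m ^ 2 := pow_dvd_pow_of_dvd h3 2
    exact (by norm_num : (4 : ℤ) = 2 ^ 2) ▸ h6.trans h5
  rw [h2] at h4
  omega

/-- For `a ≡ 2 mod 4`. -/
theorem artin_upper_of_two_mod_four (h : a % 4 = 2) {ε : ℝ} (hε : 0 < ε) :
    ∀ᶠ x : ℕ in atTop, (primRootCount a x : ℝ) / Nat.primeCounting x < artinConst + ε :=
  artin_upper (Or.inl h) (pow_ne_of_two_mod_four h) hε

/-- For `a = 2`. -/
theorem artin_upper_two {ε : ℝ} (hε : 0 < ε) :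
    ∀ᶠ x : ℕ in atTop, (primRootCount 2 x : ℝ) / Nat.primeCounting x < artinConst + ε :=
  artin_upper_of_two_mod_four (by norm_num) hε

/-- For `a = 10` (primes with the maximal period `p - 1` of the decimal expansion of `1 / p`). -/
theorem artin_upper_ten {ε : ℝ} (hε : 0 < ε) :
    ∀ᶠ x : ℕ in atTop, (primRootCount 10 x : ℝ) / Nat.primeCounting x < artinConst + ε :=
  artin_upper_of_two_mod_four (by norm_num) hε

/-- The same with `limsup`. -/
theorem limsup_primRootCount_le (h4 : a % 4 = 2 ∨ a % 4 = 3)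
    (hpow : ∀ q : ℕ, q.Prime → ∀ b : ℚ, b ^ q ≠ a) :
    limsup (fun x : ℕ => (primRootCount a x : ℝ) / Nat.primeCounting x) atTop ≤ artinConst := by
  refine le_of_forall_pos_le_add fun ε hε => ?_
  refine limsup_le_of_le ?_ ((artin_upper h4 hpow hε).mono fun x hx => hx.le)
  refine IsCoboundedUnder.of_frequently_ge (a := 0) (Frequently.of_forall fun x => ?_)
  positivity

lemma fac_nonneg (q : Nat.Primes) : 0 ≤ fac q := by
  have hq : (2 : ℝ) ≤ ((q : ℕ) : ℝ) := by exact_mod_cast q.2.two_le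
  rw [fac, sub_nonneg, div_le_one (by nlinarith)]
  nlinarith

lemma fac_le_one (q : Nat.Primes) : fac q ≤ 1 := by
  have hq : (2 : ℝ) ≤ ((q : ℕ) : ℝ) := by exact_mod_cast q.2.two_le
  have h : 0 ≤ 1 / (((q : ℕ) : ℝ) * (((q : ℕ) : ℝ) - 1)) := by
    apply div_nonneg zero_le_one
    nlinarith
  rw [fac]
  linarith

/-- Artin's constant is at most each of its partial products. -/
theorem artinConst_le_prod (s : Finset Nat.Primes) : artinConst ≤ ∏ q ∈ s, fac q := by
  classical
  refine le_of_tendsto (multipliable_fac.hasProd : Tendsto _ atTop (𝓝 artinConst)) ?_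
  filter_upwards [eventually_ge_atTop s] with t ht
  rw [← Finset.prod_sdiff ht]
  exact mul_le_of_le_one_left (Finset.prod_nonneg fun q _ => fac_nonneg q)
    (Finset.prod_le_one (fun q _ => fac_nonneg q) fun q _ => fac_le_one q)

/-- the prime `n` -/
def mkPrime (n : ℕ) (h : n.Prime) : Nat.Primes := ⟨n, h⟩

lemma mkPrime_ne {m n : ℕ} {hm : m.Prime} {hn : n.Prime} (h : m ≠ n) : mkPrime m hm ≠ mkPrime n hn :=
  fun h' => h (congrArg (fun q : Nat.Primes => (q : ℕ)) h')

lemma fac_mkPrime (n : ℕ) (h : n.Prime) : fac (mkPrime n h) = 1 - 1 / ((n : ℝ) * ((n : ℝ) - 1)) := rfl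

/-- `artinConst < 0.38` (its value is `0.37395...`) -/
theorem artinConst_lt : artinConst < 38 / 100 := by
  classical
  have h := artinConst_le_prod {mkPrime 2 (by norm_num), mkPrime 3 (by norm_num),
    mkPrime 5 (by norm_num), mkPrime 7 (by norm_num), mkPrime 11 (by norm_num),
    mkPrime 13 (by norm_num), mkPrime 17 (by norm_num)}
  refine h.trans_lt ?_
  rw [Finset.prod_insert, Finset.prod_insert, Finset.prod_insert, Finset.prod_insert,
    Finset.prod_insert, Finset.prod_insert, Finset.prod_singleton]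
  · simp only [fac_mkPrime]
    norm_num
  all_goals
    simp only [Finset.mem_insert, Finset.mem_singleton, not_or]
    first
      | exact mkPrime_ne (by norm_num)
      | exact ⟨mkPrime_ne (by norm_num), mkPrime_ne (by norm_num)⟩
      | exact ⟨mkPrime_ne (by norm_num), mkPrime_ne (by norm_num), mkPrime_ne (by norm_num)⟩
      | exact ⟨mkPrime_ne (by norm_num), mkPrime_ne (by norm_num), mkPrime_ne (by norm_num),
          mkPrime_ne (by norm_num)⟩
      | exact ⟨mkPrime_ne (by norm_num), mkPrime_ne (by norm_num), mkPrime_ne (by norm_num),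
          mkPrime_ne (by norm_num), mkPrime_ne (by norm_num)⟩
      | exact ⟨mkPrime_ne (by norm_num), mkPrime_ne (by norm_num), mkPrime_ne (by norm_num),
          mkPrime_ne (by norm_num), mkPrime_ne (by norm_num), mkPrime_ne (by norm_num)⟩

/-- Fewer than 38 percent of the primes have the primitive root `2` (`10`, ...). -/
theorem eventually_primRootCount_lt (h : a % 4 = 2) :
    ∀ᶠ x : ℕ in atTop, (primRootCount a x : ℝ) / Nat.primeCounting x < 38 / 100 := by
  filter_upwards [artin_upper_of_two_mod_four h (sub_pos.mpr artinConst_lt)] with x hx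
  linarith

end

end Fermat.Agent.Cor.Art
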