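import Fermat.Agent.Corollaries.Art.Kummer

/-!
# Square roots which are ramified at `2`
-/

set_option autoImplicit false

open Fermat.Agent.Frob Fermat.Agent.FrobDensity

namespace Fermat.Agent.Cor.Art

local notation "Qbar" => AlgebraicClosure ℚ

variable {A : ValuationSubring Qbar}

lemma val_two_lt (hA : A.LiesOverPrime 2) : A.valuation (2 : Qbar) < 1 := by
  have h : ((2 : ℕ) : Qbar) ∈ A.nonunits := hA
  rw [ValuationSubring.mem_nonunits_iff] at h
  exact_mod_cast h

lemma val_two_pos (A : ValuationSubring Qbar) : 0 < A.valuation (2 : Qbar) :=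
  zero_lt_iff.mpr ((Valuation.ne_zero_iff _).mpr two_ne_zero)

lemma val_int_le (A : ValuationSubring Qbar) (k : ℤ) : A.valuation (k : Qbar) ≤ 1 :=
  (A.valuation_le_one_iff _).mpr (intCast_mem A k)

lemma val_odd (hA : A.LiesOverPrime 2) {m : ℤ} (hm : m % 2 = 1) : A.valuation (m : Qbar) = 1 := by
  obtain ⟨k, rfl⟩ : ∃ k : ℤ, m = 1 + 2 * k := ⟨m / 2, by omega⟩
  have h : A.valuation (2 * (k : Qbar)) < 1 := by
    rw [map_mul]
    exact mul_lt_one_of_lt_of_le (val_two_lt hA) (val_int_le A k)
  have h1 := A.valuation.map_one_add_of_lt h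
  push_cast
  exact h1

/-- **`√a` is ramified at `2`** for `a ≡ 2, 3 mod 4`. -/
theorem exists_inertia_sqrt (hA : A.LiesOverPrime 2) {a : ℤ} (h4 : a % 4 = 2 ∨ a % 4 = 3)
    {α : Qbar} (hα : α ^ 2 = a) : ∃ σ ∈ A.inertiaSubgroupIn ℚ, σ α ≠ α := by
  by_contra hcon
  push Not at hcon
  have hanti := zpow_right_strictAnti₀ (val_two_pos A) (val_two_lt hA)
  have h2e : A.valuation (((2 : ℕ) : Qbar)) = A.valuation (2 : Qbar) := by norm_cast
  rcases h4 with h4 | h4
  · obtain ⟨m, rfl⟩ : ∃ m : ℤ, a = 2 * m := ⟨a / 2, by omega⟩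
    have hm : m % 2 = 1 := by omega
    have hα0 : α ≠ 0 := by
      rintro rfl
      have h5 : ((2 * m : ℤ) : Qbar) = 0 := by rw [← hα]; norm_num
      have h6 : 2 * m = 0 := by exact_mod_cast h5
      omega
    obtain ⟨n, hn⟩ := TW.exists_valuation_eq_zpow_of_fixed Nat.prime_two hA hcon hα0
    rw [h2e] at hn
    have h5 : A.valuation (α ^ 2) = A.valuation (2 : Qbar) := by
      rw [hα]
      push_cast
      rw [map_mul, val_odd hA hm, mul_one]
    rw [map_pow, hn, ← zpow_natCast, ← zpow_mul] at h5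
    have h6 : A.valuation (2 : Qbar) ^ (n * ((2 : ℕ) : ℤ)) = A.valuation (2 : Qbar) ^ (1 : ℤ) := by
      rw [zpow_one]; exact h5
    have h7 := hanti.injective h6
    push_cast at h7
    omega
  · obtain ⟨m, hm, hm2⟩ : ∃ m : ℤ, a - 1 = 2 * m ∧ m % 2 = 1 := ⟨(a - 1) / 2, by omega, by omega⟩
    have hprod : (α - 1) * (α + 1) = 2 * (m : Qbar) := by
      have h5 : ((a - 1 : ℤ) : Qbar) = ((2 * m : ℤ) : Qbar) := by rw [hm]
      push_cast at h5
      linear_combination hα + h5
    have hm0 : (2 : Qbar) * m ≠ 0 := by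
      intro h5
      have h6 : ((2 * m : ℤ) : Qbar) = 0 := by push_cast; exact h5
      have h7 : 2 * m = 0 := by exact_mod_cast h6
      omega
    have hne1 : α - 1 ≠ 0 := fun h5 => hm0 (by rw [← hprod, h5, zero_mul])
    have hne2 : α + 1 ≠ 0 := fun h5 => hm0 (by rw [← hprod, h5, mul_zero])
    obtain ⟨n₁, hn₁⟩ := TW.exists_valuation_eq_zpow_of_fixed Nat.prime_two hA (x := α - 1)
      (fun σ hσ => by rw [map_sub, map_one, hcon σ hσ]) hne1
    obtain ⟨n₂, hn₂⟩ := TW.exists_valuation_eq_zpow_of_fixed Nat.prime_two hA (x := α + 1)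
      (fun σ hσ => by rw [map_add, map_one, hcon σ hσ]) hne2
    rw [h2e] at hn₁ hn₂
    have h5 : A.valuation ((α - 1) * (α + 1)) = A.valuation (2 : Qbar) := by
      rw [hprod, map_mul, val_odd hA hm2, mul_one]
    rw [map_mul, hn₁, hn₂, ← zpow_add₀ (val_two_pos A).ne'] at h5
    have h6 : A.valuation (2 : Qbar) ^ (n₁ + n₂) = A.valuation (2 : Qbar) ^ (1 : ℤ) := by
      rw [zpow_one]; exact h5
    have h7 := hanti.injective h6
    have hαA : α ∈ A := by
      have h8 : IsIntegral A α := by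
        refine IsIntegral.of_pow (n := 2) (by norm_num) ?_
        rw [hα]
        exact (isIntegral_algebraMap (R := A) (A := Qbar) (x := ⟨(a : Qbar), intCast_mem A a⟩))
      obtain ⟨y, hy⟩ := IsIntegrallyClosed.algebraMap_eq_of_integral h8
      rw [← hy]
      exact y.2
    have h8 : A.valuation (α - 1) ≤ 1 :=
      (A.valuation_le_one_iff _).mpr (sub_mem hαA (one_mem A))
    have h9 : A.valuation (α + 1) ≤ 1 :=
      (A.valuation_le_one_iff _).mpr (add_mem hαA (one_mem A))
    have h10 : 0 ≤ n₁ := by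
      by_contra h
      push Not at h
      have h11 := hanti h
      simp only [zpow_zero] at h11
      rw [hn₁] at h8
      exact absurd h8 (not_le.mpr h11)
    have h11 : 0 ≤ n₂ := by
      by_contra h
      push Not at h
      have h12 := hanti h
      simp only [zpow_zero] at h12
      rw [hn₂] at h9
      exact absurd h9 (not_le.mpr h12)
    rcases (show n₁ = 0 ∨ n₂ = 0 by omega) with h | h
    · rw [h, zpow_zero] at hn₁
      have h12 : A.valuation ((α - 1) + 2) = A.valuation (α - 1) :=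
        Valuation.map_add_eq_of_lt_left _ (by rw [hn₁]; exact val_two_lt hA)
      have h13 : (α - 1) + 2 = α + 1 := by ring
      rw [h13, hn₁, hn₂] at h12
      have h14 : A.valuation (2 : Qbar) ^ n₂ = A.valuation (2 : Qbar) ^ (0 : ℤ) := by
        rw [zpow_zero]; exact h12
      have := hanti.injective h14
      omega
    · rw [h, zpow_zero] at hn₂
      have h12 : A.valuation ((α + 1) - 2) = A.valuation (α + 1) :=
        Valuation.map_sub_eq_of_lt_left _ (by rw [hn₂]; exact val_two_lt hA)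
      have h13 : (α + 1) - 2 = α - 1 := by ring
      rw [h13, hn₁, hn₂] at h12
      have h14 : A.valuation (2 : Qbar) ^ n₁ = A.valuation (2 : Qbar) ^ (0 : ℤ) := by
        rw [zpow_zero]; exact h12
      have := hanti.injective h14
      omega

end Fermat.Agent.Cor.Art
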